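import Mathlib

/-!
# Row 896 SS2-A5 EISDVR (helper5): an Eisenstein extension of a DVR is a DVR

`D` a discrete valuation ring with uniformiser `x`, `L` a field containing `D`, `z ∈ L` a root of
a monic polynomial `P = T^n + a_{n-1} T^{n-1} + ... + a_0` with `x ∣ a_i` for `i < n` and
`a_0 = x * unit`.  Then `S = D[z] = Algebra.adjoin D {z}` is a discrete valuation ring with
uniformiser `z`, `x = unit * z ^ n` in `S`, and `minpoly D z = P`.

Also: a DVR is a maximal proper subring of its fraction field.
-/

set_option autoImplicit false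
set_option linter.unusedSectionVars false
set_option linter.style.haveILetI false
set_option linter.unusedVariables false

noncomputable section

namespace Fermat.Agent.H5.SS2

open Polynomial IsLocalRing

section Eis

variable {D : Type*} [CommRing D] [IsDomain D] [IsDiscreteValuationRing D]
  {L : Type*} [Field L] [Algebra D L]

/-- The Eisenstein hypotheses in elementary form. -/
structure EisData (x : D) (P : D[X]) (z : L) : Prop where
  inj : Function.Injective (algebraMap D L)
  irr : Irreducible x
  monic : P.Monic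
  dvd : ∀ i, i < P.natDegree → x ∣ P.coeff i
  unit0 : ∃ u : D, IsUnit u ∧ P.coeff 0 = x * u
  root : aeval z P = 0

variable {x : D} {P : D[X]} {z : L}

theorem eis_natDegree_pos_of_root (hmonic : P.Monic) (hz : aeval z P = 0) :
    0 < P.natDegree := by
  rcases Nat.eq_zero_or_pos P.natDegree with h0 | h0
  · exfalso
    have : P = 1 := hmonic.natDegree_eq_zero.mp h0
    rw [this] at hz
    simp at hz
  · exact h0

/-- From Mathlib's `IsEisensteinAt`. -/
theorem EisData.of_isEisensteinAt (hinj : Function.Injective (algebraMap D L))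
    (hmonic : P.Monic) (hE : P.IsEisensteinAt (maximalIdeal D)) (hx : Irreducible x)
    (hz : aeval z P = 0) : EisData x P z := by
  have hmax : maximalIdeal D = Ideal.span {x} :=
    ((IsDiscreteValuationRing.irreducible_iff_uniformizer x).1 hx)
  refine ⟨hinj, hx, hmonic, ?_, ?_, hz⟩
  · intro i hi
    have := hE.mem hi
    rwa [hmax, Ideal.mem_span_singleton] at this
  · have hn : 0 < P.natDegree := eis_natDegree_pos_of_root hmonic hz
    have h0 := hE.mem hn
    rw [hmax, Ideal.mem_span_singleton] at h0
    obtain ⟨u, hu⟩ := h0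
    refine ⟨u, ?_, hu⟩
    by_contra hnu
    have hum : u ∈ maximalIdeal D := (IsLocalRing.mem_maximalIdeal u).2 hnu
    rw [hmax, Ideal.mem_span_singleton] at hum
    obtain ⟨v, hv⟩ := hum
    apply hE.notMem
    rw [hmax, Ideal.span_singleton_pow, Ideal.mem_span_singleton]
    exact ⟨v, by rw [hu, hv]; ring⟩

/-- The generator `z` as an element of `D[z]`. -/
def eisGen (z : L) : Algebra.adjoin D {z} := ⟨z, Algebra.self_mem_adjoin_singleton D z⟩

@[simp] theorem eisGen_coe (z : L) : ((eisGen (D := D) z : Algebra.adjoin D {z}) : L) = z := rfl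

namespace EisData

theorem natDegree_pos (h : EisData x P z) : 0 < P.natDegree :=
  eis_natDegree_pos_of_root h.monic h.root

theorem isIntegral (h : EisData x P z) : IsIntegral D z :=
  ⟨P, h.monic, by simpa [aeval_def] using h.root⟩

theorem aeval_gen (h : EisData x P z) : aeval (eisGen (D := D) z) P = 0 := by
  apply Subtype.ext
  have := h.root
  rw [← eisGen_coe (D := D) z] at this
  rw [← Subalgebra.coe_val, aeval_algHom_apply] at this
  simpa using this

/-- The fundamental relation `z ^ n + x * (u + z * c) = 0` in `D[z]`, `u ∈ Dˣ`. -/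
theorem relation (h : EisData x P z) :
    ∃ (u : D) (c : Algebra.adjoin D {z}), IsUnit u ∧
      (eisGen (D := D) z) ^ P.natDegree +
        algebraMap D _ x * (algebraMap D _ u + eisGen (D := D) z * c) = 0 := by
  classical
  obtain ⟨u, hu, hu0⟩ := h.unit0
  obtain ⟨m, hm⟩ : ∃ m, P.natDegree = m + 1 := ⟨P.natDegree - 1, by have := h.natDegree_pos; omega⟩
  choose! b hb using h.dvd
  refine ⟨u, ∑ i ∈ Finset.range m, algebraMap D _ (b (i + 1)) * (eisGen (D := D) z) ^ i, hu, ?_⟩
  have h1 := h.aeval_gen
  rw [h.monic.as_sum, hm] at h1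
  simp only [map_add, map_pow, aeval_X, map_sum, map_mul, aeval_C] at h1
  rw [Finset.sum_range_succ'] at h1
  rw [hm, ← h1]
  simp only [pow_zero, mul_one, hu0, map_mul]
  have h2 : ∀ i ∈ Finset.range m, algebraMap D (Algebra.adjoin D {z}) (P.coeff (i + 1)) *
      (eisGen (D := D) z) ^ (i + 1) = algebraMap D _ x * (eisGen (D := D) z *
        (algebraMap D _ (b (i + 1)) * (eisGen (D := D) z) ^ i)) := by
    intro i hi
    rw [hb (i + 1) (by rw [hm]; have := Finset.mem_range.1 hi; omega), map_mul]
    ring
  rw [Finset.sum_congr rfl h2, ← Finset.mul_sum, ← Finset.mul_sum]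
  ring


theorem finite (h : EisData x P z) : Module.Finite D (Algebra.adjoin D {z}) :=
  Algebra.finite_adjoin_simple_of_isIntegral h.isIntegral

theorem algIsIntegral (h : EisData x P z) : Algebra.IsIntegral D (Algebra.adjoin D {z}) :=
  haveI := h.finite
  Algebra.IsIntegral.of_finite D _

theorem isNoetherianRing (h : EisData x P z) : IsNoetherianRing (Algebra.adjoin D {z}) :=
  haveI := h.finite
  isNoetherian_of_tower D (isNoetherian_of_isNoetherianRing_of_finite D _)

theorem algebraMap_injective (h : EisData x P z) :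
    Function.Injective (algebraMap D (Algebra.adjoin D {z})) := by
  intro a b hab
  apply h.inj
  have := congrArg (Subtype.val) hab
  simpa using this

theorem x_mem_of_isMaximal (h : EisData x P z) (Q : Ideal (Algebra.adjoin D {z}))
    (hQ : Q.IsMaximal) : algebraMap D _ x ∈ Q := by
  haveI := h.algIsIntegral
  haveI := hQ
  have hmax : (Q.comap (algebraMap D (Algebra.adjoin D {z}))).IsMaximal :=
    Ideal.isMaximal_comap_of_isIntegral_of_isMaximal Q
  have heq := IsLocalRing.eq_maximalIdeal hmax
  have hx : x ∈ maximalIdeal D := (IsLocalRing.mem_maximalIdeal x).2 h.irr.not_isUnit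
  rw [← heq] at hx
  exact hx

theorem gen_mem_of_isMaximal (h : EisData x P z) (Q : Ideal (Algebra.adjoin D {z}))
    (hQ : Q.IsMaximal) : eisGen (D := D) z ∈ Q := by
  obtain ⟨u, c, -, hrel⟩ := h.relation
  have hx := h.x_mem_of_isMaximal Q hQ
  have hpow : (eisGen (D := D) z) ^ P.natDegree ∈ Q := by
    have : (eisGen (D := D) z) ^ P.natDegree =
        -(algebraMap D _ x * (algebraMap D _ u + eisGen (D := D) z * c)) :=
      eq_neg_of_add_eq_zero_left hrel
    rw [this]
    exact Q.neg_mem (Q.mul_mem_right _ hx)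
  exact hQ.isPrime.mem_of_pow_mem _ hpow

/-- `x ∈ z D[z]`. -/
theorem gen_dvd_x (h : EisData x P z) : eisGen (D := D) z ∣ algebraMap D _ x := by
  obtain ⟨u, c, hu, hrel⟩ := h.relation
  obtain ⟨m, hm⟩ : ∃ m, P.natDegree = m + 1 := ⟨P.natDegree - 1, by have := h.natDegree_pos; omega⟩
  obtain ⟨v, hv⟩ := hu.exists_right_inv
  refine ⟨-(algebraMap D _ v) * ((eisGen (D := D) z) ^ m + algebraMap D _ x * c), ?_⟩
  rw [hm] at hrel
  have h1 : algebraMap D (Algebra.adjoin D {z}) u * algebraMap D _ v = 1 := by
    rw [← map_mul, hv, map_one]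
  have h2 : (eisGen (D := D) z) ^ (m + 1) + algebraMap D _ x * (eisGen (D := D) z * c) =
      -(algebraMap D _ x * algebraMap D _ u) := by
    rw [eq_neg_iff_add_eq_zero, ← hrel]; ring
  calc algebraMap D (Algebra.adjoin D {z}) x
      = algebraMap D _ x * (algebraMap D _ u * algebraMap D _ v) := by rw [h1, mul_one]
    _ = -(-(algebraMap D _ x * algebraMap D _ u)) * algebraMap D _ v := by ring
    _ = -((eisGen (D := D) z) ^ (m + 1) + algebraMap D _ x * (eisGen (D := D) z * c)) *
          algebraMap D _ v := by rw [h2]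
    _ = _ := by ring

/-- Every element of `D[z]` is congruent to a constant modulo `z`. -/
theorem exists_sub_mem (h : EisData x P z) (s : Algebra.adjoin D {z}) :
    ∃ d : D, s - algebraMap D _ d ∈ Ideal.span {eisGen (D := D) z} := by
  have hs : (s : L) ∈ (aeval (R := D) z).range := by
    rw [← Algebra.adjoin_singleton_eq_range_aeval]; exact s.2
  obtain ⟨p, hp⟩ := hs
  have hp' : aeval (eisGen (D := D) z) p = s := by
    apply Subtype.ext
    rw [← Subalgebra.coe_val, ← aeval_algHom_apply]
    simpa using hp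
  refine ⟨p.coeff 0, ?_⟩
  rw [Ideal.mem_span_singleton]
  refine ⟨aeval (eisGen (D := D) z) p.divX, ?_⟩
  conv_lhs => rw [← hp', ← Polynomial.divX_mul_X_add p]
  simp only [map_add, map_mul, aeval_X, aeval_C]
  simp only [coeff_add, coeff_C_zero, mul_coeff_zero, coeff_X_zero, mul_zero, zero_add]
  ring

theorem nontrivial (h : EisData x P z) : Nontrivial (Algebra.adjoin D {z}) := inferInstance

theorem span_gen_isMaximal (h : EisData x P z) :
    (Ideal.span {eisGen (D := D) z}).IsMaximal := by
  obtain ⟨Q, hQ⟩ := Ideal.exists_maximal (Algebra.adjoin D {z})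
  have hle : Ideal.span {eisGen (D := D) z} ≤ Q := by
    rw [Ideal.span_le, Set.singleton_subset_iff]
    exact h.gen_mem_of_isMaximal Q hQ
  rw [Ideal.isMaximal_iff]
  refine ⟨fun h1 => hQ.ne_top ((Ideal.eq_top_iff_one _).2 (hle h1)), ?_⟩
  intro J s hJ hs hsJ
  obtain ⟨d, hd⟩ := h.exists_sub_mem s
  have hdJ : algebraMap D (Algebra.adjoin D {z}) d ∈ J := by
    have := J.sub_mem hsJ (hJ hd)
    simpa using this
  have hdu : IsUnit d := by
    by_contra hnu
    have hdm : d ∈ maximalIdeal D := (IsLocalRing.mem_maximalIdeal d).2 hnu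
    rw [h.irr.maximalIdeal_eq, Ideal.mem_span_singleton] at hdm
    apply hs
    have h3 : algebraMap D (Algebra.adjoin D {z}) d ∈ Ideal.span {eisGen (D := D) z} := by
      rw [Ideal.mem_span_singleton]
      exact h.gen_dvd_x.trans ((algebraMap D _).map_dvd hdm)
    have := (Ideal.span {eisGen (D := D) z}).add_mem hd h3
    simpa using this
  exact (Ideal.eq_top_iff_one J).1 (Ideal.eq_top_of_isUnit_mem J hdJ (hdu.map _))

theorem isLocalRing (h : EisData x P z) : IsLocalRing (Algebra.adjoin D {z}) := by
  refine IsLocalRing.of_unique_max_ideal ⟨_, h.span_gen_isMaximal, fun Q hQ => ?_⟩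
  refine (h.span_gen_isMaximal.eq_of_le hQ.ne_top ?_).symm
  rw [Ideal.span_le, Set.singleton_subset_iff]
  exact h.gen_mem_of_isMaximal Q hQ

theorem maximalIdeal_eq (h : EisData x P z) [IsLocalRing (Algebra.adjoin D {z})] :
    maximalIdeal (Algebra.adjoin D {z}) = Ideal.span {eisGen (D := D) z} :=
  (IsLocalRing.eq_maximalIdeal h.span_gen_isMaximal).symm

theorem gen_ne_zero (h : EisData x P z) : eisGen (D := D) z ≠ 0 := by
  intro h0
  have := h.gen_dvd_x
  rw [h0, zero_dvd_iff] at this
  exact h.irr.ne_zero (h.algebraMap_injective (by rw [this, map_zero]))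

theorem z_ne_zero (h : EisData x P z) : z ≠ 0 := by
  intro h0
  apply h.gen_ne_zero
  apply Subtype.ext
  simpa using h0

/-- **EISDVR**: `D[z]` is a discrete valuation ring. -/
theorem isDiscreteValuationRing (h : EisData x P z) :
    IsDiscreteValuationRing (Algebra.adjoin D {z}) := by
  haveI := h.isLocalRing
  haveI := h.isNoetherianRing
  have hprin : (maximalIdeal (Algebra.adjoin D {z})).IsPrincipal := by
    rw [h.maximalIdeal_eq]
    exact ⟨⟨_, rfl⟩⟩
  haveI : IsPrincipalIdealRing (Algebra.adjoin D {z}) :=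
    ((tfae_of_isNoetherianRing_of_isLocalRing_of_isDomain
      (R := Algebra.adjoin D {z})).out 4 0).1 hprin
  refine { not_a_field' := ?_ }
  rw [h.maximalIdeal_eq, Ne, Ideal.span_singleton_eq_bot]
  exact h.gen_ne_zero

/-- `z` is a uniformiser of `D[z]`. -/
theorem irreducible_gen (h : EisData x P z) : Irreducible (eisGen (D := D) z) := by
  haveI := h.isDiscreteValuationRing
  rw [IsDiscreteValuationRing.irreducible_iff_uniformizer]
  exact h.maximalIdeal_eq

/-- `x = unit * z ^ n` in `D[z]`. -/
theorem x_eq_unit_mul_pow (h : EisData x P z) :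
    ∃ w : (Algebra.adjoin D {z})ˣ,
      algebraMap D (Algebra.adjoin D {z}) x = w * (eisGen (D := D) z) ^ P.natDegree := by
  haveI := h.isLocalRing
  obtain ⟨u, c, hu, hrel⟩ := h.relation
  have hmem : eisGen (D := D) z * c ∈ maximalIdeal (Algebra.adjoin D {z}) := by
    rw [h.maximalIdeal_eq]
    exact Ideal.mul_mem_right _ _ (Ideal.mem_span_singleton_self _)
  have hunit : IsUnit (algebraMap D (Algebra.adjoin D {z}) u + eisGen (D := D) z * c) := by
    by_contra hnu
    have h1 : algebraMap D (Algebra.adjoin D {z}) u + eisGen (D := D) z * c ∈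
        maximalIdeal (Algebra.adjoin D {z}) := (IsLocalRing.mem_maximalIdeal _).2 hnu
    have h2 := (maximalIdeal (Algebra.adjoin D {z})).sub_mem h1 hmem
    rw [add_sub_cancel_right] at h2
    exact (IsLocalRing.mem_maximalIdeal _).1 h2 (hu.map _)
  obtain ⟨w, hw⟩ := hunit
  refine ⟨-w⁻¹, ?_⟩
  rw [← hw] at hrel
  have : (eisGen (D := D) z) ^ P.natDegree = -(algebraMap D _ x * (w : Algebra.adjoin D {z})) :=
    eq_neg_of_add_eq_zero_left hrel
  rw [this]
  simp only [Units.val_neg, neg_mul, mul_neg, neg_neg]
  rw [mul_comm (algebraMap D _ x), ← mul_assoc, Units.inv_mul, one_mul]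

end EisData

end Eis

end Fermat.Agent.H5.SS2
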