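import Fermat.Agent.H86.SS2.Emb3Defs
import Fermat.Agent.H3.SSTwistCore

/-!
# P-SS2 row 1039 SS2-C1-POWINDEP (helper5)

`1, u, …, u^(q-1)` are independent over `k((t^q))` when `q ∤ ord u`
(adapter to helper3's landed `Fermat.Agent.H3.SSTwist.pow_independent`).
-/

set_option autoImplicit false

namespace Fermat.Agent.H5.SS2

open Polynomial ModularCurve

/-- **POWINDEP** (row 1039). -/
theorem powIndep : Fermat.Agent.H86.SS2.PowIndepStatement := by
  intro k _ q _ hq u hu hord Q hdeg hQ
  have hcoeff : u.coeff u.order ≠ 0 := fun h => hu (HahnSeries.coeff_order_eq_zero.1 h)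
  have hsum : ∑ j : Fin q, qExpand k q (Q.coeff (j : ℕ)) * u ^ (j : ℕ) = 0 := by
    rw [eval_map, eval₂_eq_sum_range' (qExpand k q) hdeg u, Finset.sum_range] at hQ
    exact hQ
  have hall := Fermat.Agent.H3.SSTwist.pow_independent q hq hord hcoeff
    (fun j => Q.coeff (j : ℕ)) hsum
  refine Polynomial.ext fun n => ?_
  rw [coeff_zero]
  by_cases hn : n < q
  · exact hall ⟨n, hn⟩
  · exact coeff_eq_zero_of_natDegree_lt (lt_of_lt_of_le hdeg (not_lt.1 hn))

end Fermat.Agent.H5.SS2
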